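import Fermat.Statements.S04

set_option autoImplicit false

namespace Fermat.Agent.S04.helper4

open FreyPackage WeierstrassCurve

/-- `4 ∣ b^p - 1 - a^p` for a Frey package. -/
lemma four_dvd (P : FreyPackage) : (4 : ℤ) ∣ P.b ^ P.p - 1 - P.a ^ P.p := by
  have hb : (2 : ℤ) ∣ P.b := (ZMod.intCast_zmod_eq_zero_iff_dvd P.b 2).1 P.hb2
  have hb4 : (4 : ℤ) ∣ P.b ^ P.p := by
    have h2 : (2 : ℤ) ^ 2 ∣ P.b ^ P.p :=
      (pow_dvd_pow_of_dvd hb 2).trans (pow_dvd_pow _ (by have := P.hp5; omega))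
    simpa using h2
  have ha : ((P.a ^ P.p : ℤ) : ZMod 4) = 3 := by
    have h1 : ((P.a ^ P.p : ℤ) : ZMod 4) = (3 : ZMod 4) ^ P.p := by
      rw [Int.cast_pow, P.ha4]
    rw [h1]
    obtain ⟨k, hk⟩ := P.hp_odd
    rw [hk, pow_succ, pow_mul]
    have : (3 : ZMod 4) ^ 2 = 1 := by decide
    rw [this, one_pow, one_mul]
  have hb4' : ((P.b ^ P.p : ℤ) : ZMod 4) = 0 :=
    (ZMod.intCast_zmod_eq_zero_iff_dvd _ 4).2 hb4
  refine (ZMod.intCast_zmod_eq_zero_iff_dvd _ 4).1 ?_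
  rw [Int.cast_sub, Int.cast_sub, ha, hb4']
  decide

/-- `16 ∣ b^p` for a Frey package. -/
lemma sixteen_dvd (P : FreyPackage) : (16 : ℤ) ∣ P.b ^ P.p := by
  have hb : (2 : ℤ) ∣ P.b := (ZMod.intCast_zmod_eq_zero_iff_dvd P.b 2).1 P.hb2
  have h2 : (2 : ℤ) ^ 4 ∣ P.b ^ P.p :=
    (pow_dvd_pow_of_dvd hb 4).trans (pow_dvd_pow _ (by have := P.hp5; omega))
  simpa using h2

lemma sixteen_dvd_mul (P : FreyPackage) : (16 : ℤ) ∣ -(P.a ^ P.p) * (P.b ^ P.p) :=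
  Dvd.dvd.mul_left (sixteen_dvd P) _

/-- The integral Frey curve is an integral model of the rational Frey curve (with trivial
change of variables). -/
lemma freyCurveInt_map (P : FreyPackage) :
    P.freyCurveInt.map (Int.castRingHom ℚ) = P.freyCurve := by
  obtain ⟨k, hk⟩ := four_dvd P
  obtain ⟨m, hm⟩ := sixteen_dvd_mul P
  have hkQ : ((P.b : ℚ) ^ P.p - 1 - (P.a : ℚ) ^ P.p) = 4 * (k : ℚ) := by
    exact_mod_cast hk
  have hmQ : (-((P.a : ℚ) ^ P.p) * ((P.b : ℚ) ^ P.p)) = 16 * (m : ℚ) := by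
    exact_mod_cast hm
  ext
  · simp [freyCurveInt, freyCurve, WeierstrassCurve.map]
  · simp only [freyCurveInt, freyCurve, WeierstrassCurve.map, eq_intCast]
    rw [hk, hkQ]
    rw [Int.mul_ediv_cancel_left _ (by norm_num : (4 : ℤ) ≠ 0)]
    field_simp
  · simp [freyCurveInt, freyCurve, WeierstrassCurve.map]
  · simp only [freyCurveInt, freyCurve, WeierstrassCurve.map, eq_intCast]
    rw [hm, hmQ]
    rw [Int.mul_ediv_cancel_left _ (by norm_num : (16 : ℤ) ≠ 0)]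
    field_simp
  · simp [freyCurveInt, freyCurve, WeierstrassCurve.map]

lemma freyCurveInt_isIntegralModelOf (P : FreyPackage) :
    P.freyCurveInt.IsIntegralModelOf P.freyCurve :=
  ⟨1, by rw [one_smul, freyCurveInt_map]⟩

/-- Explicit discriminant of the integral Frey curve: `Δ = m² (c^p)²` with `16 m = -a^p b^p`. -/
lemma freyCurveInt_Δ (P : FreyPackage) :
    ∃ m : ℤ, -(P.a ^ P.p) * (P.b ^ P.p) = 16 * m ∧
      P.freyCurveInt.Δ = m ^ 2 * (P.c ^ P.p) ^ 2 ∧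
      P.freyCurveInt.c₄ = (P.a ^ P.p) ^ 2 + P.a ^ P.p * P.b ^ P.p + (P.b ^ P.p) ^ 2 := by
  obtain ⟨k, hk⟩ := four_dvd P
  obtain ⟨m, hm⟩ := sixteen_dvd_mul P
  refine ⟨m, hm, ?_, ?_⟩
  · simp only [WeierstrassCurve.Δ, WeierstrassCurve.b₂, WeierstrassCurve.b₄, WeierstrassCurve.b₆,
      WeierstrassCurve.b₈, freyCurveInt]
    rw [hk, hm, Int.mul_ediv_cancel_left _ (by norm_num : (4 : ℤ) ≠ 0),
      Int.mul_ediv_cancel_left _ (by norm_num : (16 : ℤ) ≠ 0), ← P.hFLT]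
    have hk' : P.b ^ P.p = 4 * k + 1 + P.a ^ P.p := by linarith
    rw [hk'] at hm ⊢
    linear_combination (4 * m ^ 2) * hm
  · simp only [WeierstrassCurve.c₄, WeierstrassCurve.b₂, WeierstrassCurve.b₄, freyCurveInt]
    rw [hk, hm, Int.mul_ediv_cancel_left _ (by norm_num : (4 : ℤ) ≠ 0),
      Int.mul_ediv_cancel_left _ (by norm_num : (16 : ℤ) ≠ 0)]
    have hk' : P.b ^ P.p = 4 * k + 1 + P.a ^ P.p := by linarith
    rw [hk'] at hm ⊢
    linear_combination (3 : ℤ) * hm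

lemma freyCurveInt_Δ_ne_zero (P : FreyPackage) : P.freyCurveInt.Δ ≠ 0 := by
  obtain ⟨m, hm, hΔ, -⟩ := freyCurveInt_Δ P
  rw [hΔ]
  have hm0 : m ≠ 0 := by
    rintro rfl
    have : P.a ^ P.p * P.b ^ P.p = 0 := by linarith
    exact mul_ne_zero (pow_ne_zero _ P.ha0) (pow_ne_zero _ P.hb0) this
  exact mul_ne_zero (pow_ne_zero _ hm0) (pow_ne_zero _ (pow_ne_zero _ P.hc0))

lemma not_dvd_both_of_gcd_eq_one {x y : ℤ} (h : gcd x y = 1) {q : ℕ} (hq : q.Prime)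
    (hx : (q : ℤ) ∣ x) (hy : (q : ℤ) ∣ y) : False := by
  have h1 : (q : ℤ) ∣ gcd x y := dvd_gcd hx hy
  rw [h] at h1
  exact (Nat.prime_iff_prime_int.mp hq).not_isUnit (isUnit_of_dvd_one h1)

lemma freyCurveInt_isSemistableModel (P : FreyPackage) : P.freyCurveInt.IsSemistableModel := by
  intro q hq hqΔ hqc₄
  obtain ⟨m, hm, hΔ, hc₄⟩ := freyCurveInt_Δ P
  have hqp : Prime (q : ℤ) := Nat.prime_iff_prime_int.mp hq
  rw [hΔ] at hqΔ
  rw [hc₄] at hqc₄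
  -- `q ∣ a b` or `q ∣ c`
  have key : (q : ℤ) ∣ P.a ^ P.p * P.b ^ P.p ∨ (q : ℤ) ∣ P.c := by
    rcases hqp.dvd_or_dvd hqΔ with h | h
    · left
      have h1 : (q : ℤ) ∣ m := hqp.dvd_of_dvd_pow h
      have h2 : (q : ℤ) ∣ 16 * m := Dvd.dvd.mul_left h1 _
      rw [← hm] at h2
      simpa using h2
    · right
      exact hqp.dvd_of_dvd_pow (hqp.dvd_of_dvd_pow h)
  rcases key with h | h
  · rcases hqp.dvd_or_dvd h with ha | hb
    · -- q ∣ a, so q ∣ b^(2p)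
      have ha' : (q : ℤ) ∣ P.a ^ P.p := ha
      have h3 : (q : ℤ) ∣ (P.b ^ P.p) ^ 2 := by
        have h4 : (q : ℤ) ∣ (P.a ^ P.p) ^ 2 + P.a ^ P.p * P.b ^ P.p :=
          dvd_add (Dvd.dvd.pow ha' two_ne_zero) (Dvd.dvd.mul_right ha' _)
        exact (dvd_add_right h4).1 hqc₄
      exact not_dvd_both_of_gcd_eq_one P.hgcdab hq (hqp.dvd_of_dvd_pow ha')
        (hqp.dvd_of_dvd_pow (hqp.dvd_of_dvd_pow h3))
    · have hb' : (q : ℤ) ∣ P.b ^ P.p := hb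
      have h3 : (q : ℤ) ∣ (P.a ^ P.p) ^ 2 := by
        have h4 : (q : ℤ) ∣ P.a ^ P.p * P.b ^ P.p + (P.b ^ P.p) ^ 2 :=
          dvd_add (Dvd.dvd.mul_left hb' _) (Dvd.dvd.pow hb' two_ne_zero)
        have h5 : (P.a ^ P.p) ^ 2 + P.a ^ P.p * P.b ^ P.p + (P.b ^ P.p) ^ 2 =
            (P.a ^ P.p) ^ 2 + (P.a ^ P.p * P.b ^ P.p + (P.b ^ P.p) ^ 2) := by ring
        rw [h5] at hqc₄
        exact (dvd_add_left h4).1 hqc₄
      exact not_dvd_both_of_gcd_eq_one P.hgcdab hq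
        (hqp.dvd_of_dvd_pow (hqp.dvd_of_dvd_pow h3)) (hqp.dvd_of_dvd_pow hb')
  · -- q ∣ c, so q ∣ a^p b^p
    have hc' : (q : ℤ) ∣ P.c ^ P.p := Dvd.dvd.pow h P.hp0
    have h5 : (P.a ^ P.p) ^ 2 + P.a ^ P.p * P.b ^ P.p + (P.b ^ P.p) ^ 2 =
        (P.c ^ P.p) ^ 2 - P.a ^ P.p * P.b ^ P.p := by
      rw [← P.hFLT]; ring
    rw [h5] at hqc₄
    have h6 : (q : ℤ) ∣ P.a ^ P.p * P.b ^ P.p :=
      (dvd_sub_right (Dvd.dvd.pow hc' two_ne_zero)).1 hqc₄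
    rcases hqp.dvd_or_dvd h6 with ha | hb
    · exact not_dvd_both_of_gcd_eq_one P.hgcdac hq (hqp.dvd_of_dvd_pow ha) h
    · exact not_dvd_both_of_gcd_eq_one P.hgcdbc hq (hqp.dvd_of_dvd_pow hb) h

/-- **Wiring for S04**: modularity of semistable integral Weierstrass curves (the statement of
S60) implies that the Frey curve of any Frey package is modular. -/
theorem frey_isModular_of_semistable_modularity
    (h60 : ∀ W : WeierstrassCurve ℤ, W.Δ ≠ 0 → W.IsSemistableModel →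
      (W.map (Int.castRingHom ℚ)).IsModular)
    (P : FreyPackage) : P.freyCurve.IsModular := by
  have h := h60 P.freyCurveInt (freyCurveInt_Δ_ne_zero P) (freyCurveInt_isSemistableModel P)
  rwa [freyCurveInt_map] at h

end Fermat.Agent.S04.helper4
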